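import Fermat.Agent.S20.Defs
import Fermat.Agent.S23.H143.PrimElt

/-!
# S20, package C-core (helper860 skeleton): the lower bound `index ≤ #generators`

For a homogeneous basis `F` of `⊕_w M_w(Γ₀(N))` over the level-one ring, the number of generators
is at least the index of `Γ₀(N)`.

Route (no `j`-injectivity needed): `t := N³ E₄(N τ)` (helper143's `primElt`, on main) satisfies
`t ∣ g = t → g ∈ Γ₀(N)`, so its conjugates `conj t q` are pairwise distinct functions; hence there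
is a point `z₀` where they are pairwise distinct numbers.  Writing `t ^ b = ∑ j, a_{b j} F_j`
(`IsHomBasis.span`), every function `u` on the cosets is a polynomial in the `conj t q z₀`
(Lagrange interpolation), hence lies in the range of `c ↦ ∑ j, c_j • (q ↦ conj F_j q z₀)`.
So this linear map `ℂ^ι → ℂ^Q` is surjective.
-/

set_option autoImplicit false

open UpperHalfPlane ModularForm CongruenceSubgroup Matrix.SpecialLinearGroup Filter Topology
open scoped MatrixGroups ModularForm Manifold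

namespace Fermat.Agent.S20.H510

open Fermat.Agent.S20

/-! ### Closure properties of `IsMF` (function level) -/

lemma isMF_one (Γ : Subgroup SL(2, ℤ)) : IsMF Γ 0 (1 : ℍ → ℂ) :=
  ⟨mdifferentiable_const, fun γ _ => is_invariant_one γ, fun g => by
    rw [is_invariant_one g]
    exact Filter.const_boundedAtFilter _ (1 : ℂ)⟩

lemma isMF_mul {Γ : Subgroup SL(2, ℤ)} {k l : ℤ} {f g : ℍ → ℂ}
    (hf : IsMF Γ k f) (hg : IsMF Γ l g) : IsMF Γ (k + l) (f * g) :=
  ⟨hf.1.mul hg.1, fun γ hγ => by rw [mul_slash_SL2, hf.2.1 γ hγ, hg.2.1 γ hγ],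
    fun γ => by
      rw [mul_slash_SL2]
      exact (hf.2.2 γ).mul (hg.2.2 γ)⟩

lemma isMF_pow {Γ : Subgroup SL(2, ℤ)} {k : ℤ} {f : ℍ → ℂ} (hf : IsMF Γ k f) (b : ℕ) :
    IsMF Γ ((b : ℤ) * k) (f ^ b) := by
  induction b with
  | zero =>
    have h0 : ((0 : ℕ) : ℤ) * k = 0 := by simp
    rw [h0, pow_zero]
    exact isMF_one Γ
  | succ b ih =>
    have h1 : ((b + 1 : ℕ) : ℤ) * k = (b : ℤ) * k + k := by push_cast; ring
    rw [h1, pow_succ]
    exact isMF_mul ih hf

lemma pow_slash (k : ℤ) (f : ℍ → ℂ) (g : SL(2, ℤ)) (b : ℕ) :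
    (f ^ b) ∣[(b : ℤ) * k] g = (f ∣[k] g) ^ b := by
  induction b with
  | zero =>
    have h0 : ((0 : ℕ) : ℤ) * k = 0 := by simp
    rw [h0, pow_zero, pow_zero]
    exact is_invariant_one g
  | succ b ih =>
    have h1 : ((b + 1 : ℕ) : ℤ) * k = (b : ℤ) * k + k := by push_cast; ring
    rw [h1, pow_succ, pow_succ, mul_slash_SL2, ih]

/-! ### The primitive element as a plain function -/

/-- The primitive element `t = N³ E₄(N τ)` as a plain function. -/
noncomputable def tFun (N : ℕ) [NeZero N] : ℍ → ℂ := ⇑(Fermat.Agent.S23.H143.primElt N)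

lemma tFun_mdiff (N : ℕ) [NeZero N] : MDiff (tFun N) :=
  (Fermat.Agent.S23.H143.primElt N).holo'

lemma tFun_slash_of_mem (N : ℕ) [NeZero N] (γ : SL(2, ℤ)) (hγ : γ ∈ Gamma0 N) :
    tFun N ∣[(4 : ℤ)] γ = tFun N :=
  SlashInvariantFormClass.slash_action_eq (Fermat.Agent.S23.H143.primElt N) _ ⟨γ, hγ, rfl⟩

lemma tFun_slash_ne (N : ℕ) [NeZero N] (g : SL(2, ℤ)) (hg : g ∉ Gamma0 N) :
    tFun N ∣[(4 : ℤ)] g ≠ tFun N :=
  Fermat.Agent.S23.H143.primElt_slash_ne N g hg

lemma tFun_bdd (N : ℕ) [NeZero N] (g : SL(2, ℤ)) : IsBoundedAtImInfty (tFun N ∣[(4 : ℤ)] g) := by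
  obtain ⟨a, d, -, -, hlim⟩ := Fermat.Agent.S23.H143.tendsto_primElt_slash_atImInfty N g
  exact hlim.isBigO_one ℝ

lemma tFun_isMF (N : ℕ) [NeZero N] : IsMF (Gamma0 N) 4 (tFun N) :=
  ⟨tFun_mdiff N, tFun_slash_of_mem N, tFun_bdd N⟩

/-! ### Conjugates -/

lemma conj_mdiff (Γ : Subgroup SL(2, ℤ)) (k : ℤ) {f : ℍ → ℂ} (hf : MDiff f)
    (q : SL(2, ℤ) ⧸ Γ) : MDiff (conj Γ k f q) := by
  unfold conj
  rw [SL_slash]
  exact hf.slash k _

lemma conj_pow (Γ : Subgroup SL(2, ℤ)) (k : ℤ) (f : ℍ → ℂ) (b : ℕ) (q : SL(2, ℤ) ⧸ Γ) :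
    conj Γ ((b : ℤ) * k) (f ^ b) q = (conj Γ k f q) ^ b :=
  pow_slash k f _ b

lemma conj_sum_mul {ι : Type} [Fintype ι] (Γ : Subgroup SL(2, ℤ)) (w : ℤ) (k : ι → ℤ)
    (a F : ι → ℍ → ℂ) (ha : ∀ j, IsMF ⊤ (w - k j) (a j)) (q : SL(2, ℤ) ⧸ Γ) :
    conj Γ w (∑ j, a j * F j) q = ∑ j, a j * conj Γ (k j) (F j) q := by
  unfold conj
  rw [SlashAction.sum_slash]
  refine Finset.sum_congr rfl fun j _ => ?_
  have h := mul_slash_SL2 (w - k j) (k j) ((q.out : SL(2, ℤ))⁻¹) (a j) (F j)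
  rw [sub_add_cancel] at h
  rw [h, (ha j).2.1 _ (Subgroup.mem_top _)]

lemma conj_tFun_injective (N : ℕ) [NeZero N] :
    Function.Injective (conj (Gamma0 N) 4 (tFun N)) := by
  intro q q' h
  by_contra hne
  have hg : (q'.out : SL(2, ℤ))⁻¹ * q.out ∉ Gamma0 N := by
    intro hmem
    apply hne
    have := (QuotientGroup.eq (s := Gamma0 N)).mpr hmem
    rw [QuotientGroup.out_eq', QuotientGroup.out_eq'] at this
    exact this.symm
  apply tFun_slash_ne N _ hg
  unfold conj at h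
  have h2 := congrArg (fun f => f ∣[(4 : ℤ)] (q.out : SL(2, ℤ))) h
  simp only [← SlashAction.slash_mul] at h2
  rw [inv_mul_cancel, SlashAction.slash_one] at h2
  exact h2.symm

/-- There is a point of `ℍ` where the conjugates of the primitive element are pairwise
distinct. -/
lemma exists_point_injective (N : ℕ) [NeZero N] :
    ∃ z₀ : ℍ, Function.Injective (fun q : SL(2, ℤ) ⧸ Gamma0 N => conj (Gamma0 N) 4 (tFun N) q z₀) := by
  classical
  set Q := SL(2, ℤ) ⧸ Gamma0 N
  let s : Finset (Q × Q) := Finset.univ.filter fun p => p.1 ≠ p.2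
  let f : Q × Q → ℍ → ℂ := fun p => conj (Gamma0 N) 4 (tFun N) p.1 - conj (Gamma0 N) 4 (tFun N) p.2
  have hmd : ∀ p ∈ s, MDiff (f p) := fun p _ =>
    (conj_mdiff _ 4 (tFun_mdiff N) p.1).sub (conj_mdiff _ 4 (tFun_mdiff N) p.2)
  have hne : ∏ p ∈ s, f p ≠ 0 := by
    intro h0
    obtain ⟨p, hp, hp0⟩ := (UpperHalfPlane.prod_eq_zero_iff hmd).mp h0
    have hp' : p.1 ≠ p.2 := (Finset.mem_filter.mp hp).2
    exact hp' (conj_tFun_injective N (sub_eq_zero.mp hp0))
  obtain ⟨z₀, hz₀⟩ : ∃ z₀ : ℍ, (∏ p ∈ s, f p) z₀ ≠ 0 := by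
    by_contra hcon
    refine hne (funext fun z => ?_)
    by_contra hz
    exact hcon ⟨z, hz⟩
  refine ⟨z₀, fun q q' hqq' => ?_⟩
  by_contra hne'
  apply hz₀
  rw [Finset.prod_apply]
  refine Finset.prod_eq_zero (i := (q, q')) (Finset.mem_filter.mpr ⟨Finset.mem_univ _, hne'⟩) ?_
  simp only [f, Pi.sub_apply]
  exact sub_eq_zero.mpr hqq'

/-! ### The lower bound -/

variable {N : ℕ} [NeZero N] {ι : Type} [Fintype ι] {k : ι → ℤ} {F : ι → ℍ → ℂ}

/-- Only the spanning property is needed: if every modular form on `Γ₀(N)` is a combination of the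
`F j` with level-one coefficients, then at a suitable point `z₀` the conjugate vectors of the `F j`
span `ℂ^Q`. -/
theorem exists_point_span_top
    (hspan : ∀ (w : ℤ) (f : ℍ → ℂ), IsMF (Gamma0 N) w f →
      ∃ a : ι → ℍ → ℂ, (∀ j, IsMF ⊤ (w - k j) (a j)) ∧ f = ∑ j, a j * F j) :
    ∃ z₀ : ℍ, Function.Surjective
      (Fintype.linearCombination ℂ
        (fun j : ι => fun q : SL(2, ℤ) ⧸ Gamma0 N => conj (Gamma0 N) (k j) (F j) q z₀)) := by
  classical
  obtain ⟨z₀, hz₀⟩ := exists_point_injective N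
  refine ⟨z₀, fun u => ?_⟩
  set v : SL(2, ℤ) ⧸ Gamma0 N → ℂ := fun q => conj (Gamma0 N) 4 (tFun N) q z₀ with hv
  choose a ha hsum using fun b : ℕ => hspan ((b : ℤ) * 4) (tFun N ^ b) (isMF_pow (tFun_isMF N) b)
  -- the key identity: powers of the nodes are combinations of the conjugate vectors
  have key : ∀ (b : ℕ) (q : SL(2, ℤ) ⧸ Gamma0 N),
      v q ^ b = ∑ j, a b j z₀ * conj (Gamma0 N) (k j) (F j) q z₀ := by
    intro b q
    have h1 := conj_pow (Gamma0 N) 4 (tFun N) b q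
    have h2 := conj_sum_mul (Gamma0 N) ((b : ℤ) * 4) k (a b) F (ha b) q
    rw [← hsum b, h1] at h2
    have h3 := congrFun h2 z₀
    simpa [hv, Finset.sum_apply] using h3
  set p : Polynomial ℂ := Lagrange.interpolate Finset.univ v u with hp
  have hpe : ∀ q : SL(2, ℤ) ⧸ Gamma0 N, p.eval (v q) = u q := fun q =>
    Lagrange.eval_interpolate_at_node (r := u) (fun x _ y _ h => hz₀ h) (Finset.mem_univ q)
  refine ⟨fun j => ∑ b ∈ Finset.range (p.natDegree + 1), p.coeff b * a b j z₀, ?_⟩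
  funext q
  rw [Fintype.linearCombination_apply, Finset.sum_apply, ← hpe q, Polynomial.eval_eq_sum_range]
  simp only [Pi.smul_apply, smul_eq_mul, key, Finset.sum_mul, Finset.mul_sum]
  rw [Finset.sum_comm]
  refine Finset.sum_congr rfl fun b _ => Finset.sum_congr rfl fun j _ => ?_
  ring

/-- **C-core 2, lower bound**: the number of generators of a homogeneous basis is at least the
index of `Γ₀(N)`. -/
theorem index_le_card (hB : IsHomBasis N k F) : (Gamma0 N).index ≤ Fintype.card ι := by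
  classical
  obtain ⟨z₀, hsurj⟩ := exists_point_span_top (N := N) (k := k) (F := F) hB.span
  have h := LinearMap.finrank_le_finrank_of_surjective hsurj
  rw [Module.finrank_fintype_fun_eq_card, Module.finrank_fintype_fun_eq_card] at h
  rw [Subgroup.index_eq_card, Nat.card_eq_fintype_card]
  exact h

/-- **C-core 2** from `pointwise_indep` at a single point: the number of generators is the
index.  (`hpi` is the conclusion of `pointwise_indep` at any one point `τ`.) -/
theorem card_eq_index_of_indep (hB : IsHomBasis N k F) (τ : ℍ)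
    (hpi : LinearIndependent ℂ
      (fun j : ι => fun q : SL(2, ℤ) ⧸ Gamma0 N => conj (Gamma0 N) (k j) (F j) q τ)) :
    Fintype.card ι = (Gamma0 N).index := by
  classical
  refine le_antisymm ?_ (index_le_card hB)
  have h := hpi.fintype_card_le_finrank
  rw [Module.finrank_fintype_fun_eq_card] at h
  rw [Subgroup.index_eq_card, Nat.card_eq_fintype_card]
  exact h

end Fermat.Agent.S20.H510
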